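import Mathlib.AlgebraicGeometry.EllipticCurve.Affine.Point
import Mathlib.AlgebraicGeometry.EllipticCurve.VariableChange
import Mathlib.Tactic

/-!
# Hauptmoduln of `X₀(3)` and `X₀(5)` attached to a point of order `3` resp. `5`

Both are rational functions of the `x`-coordinate of the point with coefficients in the ring
generated by the coefficients of the curve, so they commute with field automorphisms.
-/

set_option autoImplicit false

namespace Fermat.Agent.SmallDescent

open WeierstrassCurve WeierstrassCurve.Affine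

section Defs

variable {R S : Type*} [CommRing R] [CommRing S]

/-- The third division polynomial, as a function of `x`. -/
def psiThreeVal (W : WeierstrassCurve R) (x : R) : R :=
  3 * x ^ 4 + W.b₂ * x ^ 3 + 3 * W.b₄ * x ^ 2 + 3 * W.b₆ * x + W.b₈

/-- `(2 y + a₁ x + a₃)²` as a function of `x`. -/
def gSqVal (W : WeierstrassCurve R) (x : R) : R :=
  4 * x ^ 3 + W.b₂ * x ^ 2 + 2 * W.b₄ * x + W.b₆

/-- `6 x² + b₂ x + b₄`. -/
def hVal (W : WeierstrassCurve R) (x : R) : R :=
  6 * x ^ 2 + W.b₂ * x + W.b₄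

lemma map_psiThreeVal (W : WeierstrassCurve R) (f : R →+* S) (x : R) :
    psiThreeVal (W.map f) (f x) = f (psiThreeVal W x) := by
  simp [psiThreeVal, map_ofNat]

lemma map_gSqVal (W : WeierstrassCurve R) (f : R →+* S) (x : R) :
    gSqVal (W.map f) (f x) = f (gSqVal W x) := by
  simp [gSqVal, map_ofNat]

end Defs

section Field

variable {F L : Type*} [Field F] [Field L]

/-- The Tate parameter at a point with abscissa `x`. -/
def tateParam (W : WeierstrassCurve F) (x : F) : F :=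
  -(psiThreeVal W x ^ 3 / gSqVal W x ^ 4)

/-- The Hauptmodul of `X₀(5)` at a point with abscissa `x`. -/
def levelFive (W : WeierstrassCurve F) (x : F) : F :=
  tateParam W x - 11 - 1 / tateParam W x

lemma map_levelFive (W : WeierstrassCurve F) (f : F →+* L) (x : F) :
    levelFive (W.map f) (f x) = f (levelFive W x) := by
  simp only [levelFive, tateParam, map_sub, map_div₀, map_neg, map_one, map_pow, map_ofNat,
    map_psiThreeVal, map_gSqVal]

variable {W : WeierstrassCurve F} {x y : F}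

lemma gSqVal_eq (hE : W.toAffine.Equation x y) :
    gSqVal W x = (2 * y + W.a₁ * x + W.a₃) ^ 2 := by
  rw [equation_iff] at hE
  simp only [gSqVal, b₂, b₄, b₆]
  linear_combination -4 * hE

/-- The tangent slope. -/
def tangentSlope (W : WeierstrassCurve F) (x y : F) : F :=
  (3 * x ^ 2 + 2 * W.a₂ * x + W.a₄ - W.a₁ * y) / (2 * y + W.a₁ * x + W.a₃)

/-- Moving `(x, y)` to the origin with horizontal tangent: the new `a₁`, `a₂`. -/
lemma shift_coeffs (hE : W.toAffine.Equation x y) (hg : 2 * y + W.a₁ * x + W.a₃ ≠ 0) :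
    (W.a₁ + 2 * tangentSlope W x y) * (2 * y + W.a₁ * x + W.a₃) = hVal W x ∧
      (3 * x + W.a₂ - W.a₁ * tangentSlope W x y - tangentSlope W x y ^ 2) *
        (2 * y + W.a₁ * x + W.a₃) ^ 2 = psiThreeVal W x := by
  rw [equation_iff] at hE
  have hm : tangentSlope W x y * (2 * y + W.a₁ * x + W.a₃)
      = 3 * x ^ 2 + 2 * W.a₂ * x + W.a₄ - W.a₁ * y := div_mul_cancel₀ _ hg
  set m := tangentSlope W x y
  simp only [hVal, psiThreeVal, b₂, b₄, b₆, b₈]
  refine ⟨by linear_combination 2 * hm, ?_⟩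
  linear_combination (12 * x + W.a₁ ^ 2 + 4 * W.a₂) * hE
    - (W.a₁ * (2 * y + W.a₁ * x + W.a₃) + m * (2 * y + W.a₁ * x + W.a₃)
      + (3 * x ^ 2 + 2 * W.a₂ * x + W.a₄ - W.a₁ * y)) * hm

/-- `c₄` and `Δ` in the shifted coordinates. -/
lemma invariants_shift (hE : W.toAffine.Equation x y) (hg : 2 * y + W.a₁ * x + W.a₃ ≠ 0) :
    (⟨W.a₁ + 2 * tangentSlope W x y,
      3 * x + W.a₂ - W.a₁ * tangentSlope W x y - tangentSlope W x y ^ 2,
      2 * y + W.a₁ * x + W.a₃, 0, 0⟩ : WeierstrassCurve F) =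
      (⟨1, x, tangentSlope W x y, y⟩ : VariableChange F) • W := by
  rw [equation_iff] at hE
  have hm : tangentSlope W x y * (2 * y + W.a₁ * x + W.a₃)
      = 3 * x ^ 2 + 2 * W.a₂ * x + W.a₄ - W.a₁ * y := div_mul_cancel₀ _ hg
  set m := tangentSlope W x y
  rw [variableChange_def]
  ext <;> simp only [inv_one, Units.val_one, one_pow, one_mul]
  · ring
  · ring
  · linear_combination hm
  · linear_combination hE

/-- `5 P = 0` in shifted coordinates. -/
lemma levelFive_spec (hE : W.toAffine.Equation x y) (hg : 2 * y + W.a₁ * x + W.a₃ ≠ 0)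
    {g a a₁ : F} (hg' : g = 2 * y + W.a₁ * x + W.a₃)
    (ha : a = 3 * x + W.a₂ - W.a₁ * tangentSlope W x y - tangentSlope W x y ^ 2)
    (ha₁ : a₁ = W.a₁ + 2 * tangentSlope W x y) (ha0 : a ≠ 0)
    (h5 : g ^ 2 - a₁ * g * a + a ^ 3 = 0) :
    W.c₄ ^ 3 * levelFive W x = W.Δ * (levelFive W x ^ 2 + 10 * levelFive W x + 5) ^ 3 ∧
      levelFive W (x - a) = levelFive W x := by
  subst hg'
  obtain ⟨-, h₂⟩ := shift_coeffs hE hg
  have hV := invariants_shift hE hg
  rw [← ha] at h₂ hV
  rw [← ha₁] at hV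
  set g := 2 * y + W.a₁ * x + W.a₃
  -- Tate normal form: `a₁ = u (1 - T)`, `a = -T u²`, `g = -T u³`
  obtain ⟨u, T, hu, hT0, hga, hau, ha₁u⟩ : ∃ u T : F, u ≠ 0 ∧ T ≠ 0 ∧ g = -T * u ^ 3 ∧
      a = -T * u ^ 2 ∧ a₁ = u * (1 - T) := by
    refine ⟨g / a, -(a ^ 3 / g ^ 2), div_ne_zero hg ha0,
      neg_ne_zero.2 (div_ne_zero (pow_ne_zero 3 ha0) (pow_ne_zero 2 hg)), by field_simp,
      by field_simp, ?_⟩
    field_simp
    linear_combination -h5
  have hG : gSqVal W x = g ^ 2 := gSqVal_eq hE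
  have hT : tateParam W x = T := by
    rw [tateParam, hG, ← h₂, hga, hau]
    field_simp
  -- covariance of `gSqVal` and `psiThreeVal`
  have hcov : gSqVal W (x - a) = gSqVal (⟨a₁, a, g, 0, 0⟩ : WeierstrassCurve F) (-a) ∧
      psiThreeVal W (x - a) = psiThreeVal (⟨a₁, a, g, 0, 0⟩ : WeierstrassCurve F) (-a) := by
    rw [hV]
    simp only [gSqVal, psiThreeVal, variableChange_b₂, variableChange_b₄, variableChange_b₆,
      variableChange_b₈, inv_one, Units.val_one, one_pow, one_mul]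
    exact ⟨by ring, by ring⟩
  have hT2 : tateParam W (x - a) = -1 / T := by
    rw [tateParam, hcov.1, hcov.2, ha₁u, hau, hga]
    simp only [gSqVal, psiThreeVal, b₂, b₄, b₆, b₈]
    have e1 : 4 * (-(-T * u ^ 2)) ^ 3 + ((u * (1 - T)) ^ 2 + 4 * (-T * u ^ 2)) *
        (-(-T * u ^ 2)) ^ 2 + 2 * (2 * 0 + u * (1 - T) * (-T * u ^ 3)) * (-(-T * u ^ 2))
        + ((-T * u ^ 3) ^ 2 + 4 * 0) = T ^ 4 * u ^ 6 := by ring
    have e2 : 3 * (-(-T * u ^ 2)) ^ 4 + ((u * (1 - T)) ^ 2 + 4 * (-T * u ^ 2)) *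
        (-(-T * u ^ 2)) ^ 3 + 3 * (2 * 0 + u * (1 - T) * (-T * u ^ 3)) * (-(-T * u ^ 2)) ^ 2
        + 3 * ((-T * u ^ 3) ^ 2 + 4 * 0) * (-(-T * u ^ 2))
        + ((u * (1 - T)) ^ 2 * 0 + 4 * (-T * u ^ 2) * 0 - u * (1 - T) * (-T * u ^ 3) * 0
          + (-T * u ^ 2) * (-T * u ^ 3) ^ 2 - 0 ^ 2) = T ^ 5 * u ^ 8 := by ring
    rw [e1, e2]
    field_simp
  refine ⟨?_, ?_⟩
  · have hc := congrArg WeierstrassCurve.c₄ hV
    have hd := congrArg WeierstrassCurve.Δ hV
    rw [variableChange_c₄] at hc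
    rw [variableChange_Δ] at hd
    simp only [inv_one, Units.val_one, one_pow, one_mul] at hc hd
    have hc' : W.c₄ = u ^ 4 * (T ^ 4 - 12 * T ^ 3 + 14 * T ^ 2 + 12 * T + 1) := by
      rw [← hc, ha₁u, hau, hga]
      simp only [WeierstrassCurve.c₄, b₂, b₄]
      ring
    have hd' : W.Δ = u ^ 12 * (T ^ 5 * (T ^ 2 - 11 * T - 1)) := by
      rw [← hd, ha₁u, hau, hga]
      simp only [WeierstrassCurve.Δ, b₂, b₄, b₆, b₈]
      ring
    rw [levelFive, hT, hc', hd']
    field_simp
    ring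
  · rw [levelFive, levelFive, hT, hT2]
    field_simp
    ring

end Field

section Points

variable {F : Type*} [Field F] [DecidableEq F] {W : WeierstrassCurve F}

lemma two_y_ne_zero {x y : F} {h : W.toAffine.Nonsingular x y} {n : ℕ} (hn : Odd n)
    (hP : n • (Point.some x y h) = 0) : 2 * y + W.a₁ * x + W.a₃ ≠ 0 := by
  intro hg
  have hy : y = W.toAffine.negY x y := by rw [negY]; linear_combination hg
  have h2 : 2 • (Point.some x y h) = 0 := by
    rw [two_nsmul, add_eq_zero_iff_eq_neg, Point.neg_some]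
    congr 1
  obtain ⟨k, rfl⟩ := hn
  rw [add_nsmul, mul_nsmul, h2, nsmul_zero, zero_add, one_nsmul] at hP
  exact Point.some_ne_zero h hP

/-- Doubling, in the notation of `shift_coeffs`. -/
lemma two_nsmul_some {x y : F} {h : W.toAffine.Nonsingular x y}
    (hg : 2 * y + W.a₁ * x + W.a₃ ≠ 0) :
    ∃ y' h', 2 • (Point.some x y h) = Point.some
      (x - (3 * x + W.a₂ - W.a₁ * tangentSlope W x y - tangentSlope W x y ^ 2)) y' h' ∧
      y' = -(tangentSlope W x y *
        (-(3 * x + W.a₂ - W.a₁ * tangentSlope W x y - tangentSlope W x y ^ 2)) + y) -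
        W.a₁ * (x - (3 * x + W.a₂ - W.a₁ * tangentSlope W x y - tangentSlope W x y ^ 2))
        - W.a₃ := by
  have hy : y ≠ W.toAffine.negY x y := by
    intro hy
    rw [negY] at hy
    exact hg (by linear_combination hy)
  have hs : W.toAffine.slope x x y y = tangentSlope W x y := by
    rw [slope_of_Y_ne rfl hy, tangentSlope, negY]
    congr 1
    ring
  have hx : W.toAffine.addX x x (W.toAffine.slope x x y y)
      = x - (3 * x + W.a₂ - W.a₁ * tangentSlope W x y - tangentSlope W x y ^ 2) := by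
    rw [addX, hs]
    ring
  have hy' : W.toAffine.addY x x y (W.toAffine.slope x x y y) = -(tangentSlope W x y *
        (-(3 * x + W.a₂ - W.a₁ * tangentSlope W x y - tangentSlope W x y ^ 2)) + y) -
        W.a₁ * (x - (3 * x + W.a₂ - W.a₁ * tangentSlope W x y - tangentSlope W x y ^ 2))
        - W.a₃ := by
    rw [addY, negAddY, negY, hx, hs]
    ring
  have hsum := Point.add_self_of_Y_ne (h₁ := h) hy
  rw [← two_nsmul] at hsum
  simp only [hx, hy'] at hsum
  exact ⟨_, _, hsum, rfl⟩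

/-- A point of order `5` gives a value of the `X₀(5)`-Hauptmodul, shared with its double. -/
theorem levelFive_eq {x y : F} {h : W.toAffine.Nonsingular x y}
    (hP : 5 • (Point.some x y h) = 0) :
    W.c₄ ^ 3 * levelFive W x = W.Δ * (levelFive W x ^ 2 + 10 * levelFive W x + 5) ^ 3 ∧
      ∀ x' y' h', 2 • (Point.some x y h) = Point.some x' y' h' →
        levelFive W x' = levelFive W x := by
  have hg := two_y_ne_zero (n := 5) (by decide) hP
  obtain ⟨y₂, h₂, e, hy₂⟩ := two_nsmul_some hg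
  set m := tangentSlope W x y with hm
  set a := 3 * x + W.a₂ - W.a₁ * m - m ^ 2 with ha
  have hne : Point.some x y h ≠ 0 := Point.some_ne_zero h
  have ha0 : a ≠ 0 := by
    intro h0
    rcases (Point.X_eq_iff (h₁ := h) (h₂ := h₂)).1 (show x = x - a by rw [h0, sub_zero])
      with H | H <;> rw [← e] at H
    · rw [two_nsmul, left_eq_add] at H
      exact hne H
    · rw [eq_neg_iff_add_eq_zero] at H
      refine hne ?_
      calc Point.some x y h
          = 2 • (Point.some x y h + 2 • Point.some x y h) - 5 • Point.some x y h := by abel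
        _ = 0 := by rw [H, hP, nsmul_zero, sub_zero]
  have hx : x - a ≠ x := by
    intro h0
    exact ha0 (by linear_combination -h0)
  have h3 : (Point.some (x - a) y₂ h₂ + Point.some x y h) + Point.some (x - a) y₂ h₂ = 0 := by
    rw [← e, ← hP]
    abel
  rw [Point.add_of_X_ne hx, add_eq_zero_iff_eq_neg, Point.neg_some, Point.some.injEq] at h3
  have h5 := h3.1
  rw [addX, slope_of_X_ne hx] at h5
  have hsl : (y₂ - y) / (x - a - x) = (2 * y + W.a₁ * x + W.a₃) / a - m - W.a₁ := by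
    rw [hy₂]
    field_simp
    ring
  rw [hsl] at h5
  have hspec := levelFive_spec h.1 hg (g := 2 * y + W.a₁ * x + W.a₃) (a₁ := W.a₁ + 2 * m) rfl
    ha rfl ha0 (by
      field_simp at h5
      linear_combination h5 + a ^ 2 * ha)
  refine ⟨hspec.1, fun x' y' h' hx' => ?_⟩
  rw [e, Point.some.injEq] at hx'
  rw [← hx'.1]
  exact hspec.2

end Points

end Fermat.Agent.SmallDescent
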