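import Mathlib
import Fermat.Prelude.Def_FLTPrelim_GaloisRep
import Fermat.Prelude.Def_FLTPrelim_Modularity
import Fermat.Prelude.Def_FLTPrelim_ModularRep
import Fermat.Agent.GaloisBasics.Place
import Mathlib.NumberTheory.PythagoreanTriples
import Mathlib.Data.ZMod.Basic
import Mathlib.Tactic
import Fermat.Agent.SmallDescent.LevelThreeFive

/-!
# Galois stable lines in `E[3]`, `E[5]` and rational points of `X₀(3)`, `X₀(5)`
-/

set_option autoImplicit false

namespace Fermat.Agent.SmallDescent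

open WeierstrassCurve WeierstrassCurve.Affine WeierstrassCurve.Affine.Point

local notation "Qbar" => AlgebraicClosure ℚ

/-- An element of `ℚ̄` fixed by all automorphisms is rational. -/
lemma exists_rat_of_fixed (z : Qbar) (h : ∀ σ : Qbar ≃ₐ[ℚ] Qbar, σ z = z) :
    ∃ q : ℚ, algebraMap ℚ Qbar q = z := by
  exact (InfiniteGalois.mem_range_algebraMap_iff_fixed z).2 h

variable {W : WeierstrassCurve ℚ}

lemma baseChange_c₄ : (W⁄Qbar).c₄ = algebraMap ℚ Qbar W.c₄ := map_c₄ W _

lemma baseChange_Δ : (W⁄Qbar).Δ = algebraMap ℚ Qbar W.Δ := map_Δ W _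

lemma levelFive_algEquiv (σ : Qbar ≃ₐ[ℚ] Qbar) (x : Qbar) :
    σ (levelFive (W⁄Qbar) x) = levelFive (W⁄Qbar) (σ x) := by
  have h := map_levelFive (W⁄Qbar) (σ.toAlgHom : Qbar →+* Qbar) x
  refine Eq.symm ?_
  convert! h using 2
  exact (W.map_baseChange (σ.toAlgHom)).symm

/-- If `E[p]` has `p²` points and the representation is reducible, some point spans a Galois
stable line. -/
lemma exists_eigenpoint {p : ℕ} [hp : Fact p.Prime]
    (hcard : Nat.card (Submodule.torsionBy ℤ (W⁄Qbar).Point p) = p ^ 2)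
    (hred : ¬ GaloisRepIsIrreducible (K := Qbar) ℚ W p) :
    ∃ (x y : Qbar) (h : (W⁄Qbar).Nonsingular x y), p • Point.some x y h = 0 ∧
      ∀ σ : Qbar ≃ₐ[ℚ] Qbar, ∃ k : ℕ, k < p ∧ k ≠ 0 ∧
        ∃ h', Point.some (σ x) (σ y) h' = k • Point.some x y h := by
  set M := Submodule.torsionBy ℤ (W⁄Qbar).Point p
  have : Finite M := Nat.finite_of_card_ne_zero (by rw [hcard]; exact pow_ne_zero 2 hp.out.ne_zero)
  have : Nontrivial M := Finite.one_lt_card_iff_nontrivial.1
    (by rw [hcard]; exact Nat.one_lt_pow two_ne_zero hp.out.one_lt)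
  obtain ⟨N, hN, hbot, htop⟩ : ∃ N : Submodule (ZMod p) M, IsGaloisStable ℚ N ∧ N ≠ ⊥ ∧ N ≠ ⊤ := by
    by_contra! hc
    exact hred ⟨inferInstance, fun N hN => or_iff_not_imp_left.2 (hc N hN)⟩
  obtain ⟨P, hPN, hP0⟩ := N.ne_bot_iff.1 hbot
  -- `N` is a line
  have hfr : Module.finrank (ZMod p) N = 1 := by
    have : Module.Finite (ZMod p) M := Module.Finite.of_finite
    have h2 : Module.finrank (ZMod p) M = 2 := by
      have := Module.natCard_eq_pow_finrank (K := ZMod p) (V := M)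
      rw [hcard, Nat.card_zmod] at this
      exact (Nat.pow_right_injective hp.out.two_le this).symm
    have hlt : Module.finrank (ZMod p) N < 2 := h2 ▸ Submodule.finrank_lt htop
    have hpos : 0 < Module.finrank (ZMod p) N := by
      rw [Module.finrank_pos_iff_exists_ne_zero]
      exact ⟨⟨P, hPN⟩, fun h => hP0 (Subtype.ext_iff.1 h)⟩
    omega
  obtain ⟨Pv, hPv⟩ := P
  cases Pv with
  | zero => exact absurd rfl hP0
  | some x y h =>
    have hpP : p • Point.some x y h = 0 := by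
      have h1 := (Submodule.mem_torsionBy_iff _ _).1 hPv
      rwa [natCast_zsmul] at h1
    refine ⟨x, y, h, hpP, fun σ => ?_⟩
    obtain ⟨c, hc⟩ := (finrank_eq_one_iff_of_nonzero' (⟨_, hPN⟩ : N)
      (fun h0 => hP0 (Subtype.ext_iff.1 h0))).1 hfr ⟨_, hN σ _ hPN⟩
    have hc' : σ • (Point.some x y h) = c.val • Point.some x y h := by
      have e : c • (⟨_, hPN⟩ : N) = c.val • (⟨_, hPN⟩ : N) := by
        rw [← Nat.cast_smul_eq_nsmul (ZMod p), ZMod.natCast_zmod_val]
      rw [e] at hc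
      exact (congrArg (fun z : N => ((z : M) : (W⁄Qbar).Point)) hc).symm
    refine ⟨c.val, ZMod.val_lt c, fun h0 => ?_,
      (baseChange_nonsingular W σ.toAlgHom.injective ..).mpr h, ?_⟩
    · rw [h0, zero_nsmul] at hc'
      exact Point.some_ne_zero h ((smul_eq_zero_iff_eq σ).1 hc')
    · exact hc'

/-- A reducible `E[5]` with `25` points gives a rational point on `X₀(5)`. -/
theorem exists_levelFive
    (hcard : Nat.card (Submodule.torsionBy ℤ (W⁄Qbar).Point 5) = 25)
    (hred : ¬ GaloisRepIsIrreducible (K := Qbar) ℚ W 5) :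
    ∃ s : ℚ, W.c₄ ^ 3 * s = W.Δ * (s ^ 2 + 10 * s + 5) ^ 3 := by
  have : Fact (Nat.Prime 5) := ⟨by norm_num⟩
  obtain ⟨x, y, h, hP, hσ⟩ := exists_eigenpoint (p := 5) hcard hred
  obtain ⟨hspec, hdouble⟩ := levelFive_eq hP
  obtain ⟨s, hs⟩ := exists_rat_of_fixed (levelFive (W⁄Qbar) x) fun σ => by
    rw [levelFive_algEquiv]
    obtain ⟨k, hk, hk0, h', hk'⟩ := hσ σ
    have h4 : 4 • Point.some x y h = -Point.some x y h := by
      rw [eq_neg_iff_add_eq_zero, ← hP]; abel
    have h3 : 3 • Point.some x y h = -((2 : ℕ) • Point.some x y h : (W⁄Qbar).Point) := by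
      rw [eq_neg_iff_add_eq_zero, ← hP]; abel
    obtain rfl | rfl | rfl | rfl : k = 1 ∨ k = 2 ∨ k = 3 ∨ k = 4 := by omega
    · rw [one_nsmul, Point.some.injEq] at hk'
      rw [hk'.1]
    · exact hdouble _ _ _ hk'.symm
    · rw [h3, eq_comm, neg_eq_iff_eq_neg, Point.neg_some] at hk'
      exact hdouble _ _ _ hk'
    · rw [h4, Point.neg_some, Point.some.injEq] at hk'
      rw [hk'.1]
  refine ⟨s, (algebraMap ℚ Qbar).injective ?_⟩
  rw [baseChange_c₄, baseChange_Δ, ← hs] at hspec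
  simpa [map_ofNat] using hspec

end Fermat.Agent.SmallDescent
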